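import Mathlib

/-!
# A2 / IF (helper969): `P ∩ E` is henselian when `Gal(L/E)` acts trivially modulo `𝔪_P`

`L` algebraically closed, `P` a valuation subring of `L`, `E → L` a Galois extension such that
every `σ ∈ Gal(L/E)` satisfies `σ x - x ∈ 𝔪_P` for all `x ∈ P`.  Then `P ∩ E`
(`= P.comap (algebraMap E L)`) is a henselian local ring.

Proof.  A monic `f` over `P ∩ E` with `f(a₀) ∈ 𝔪`, `f'(a₀)` a unit, has a root `α ∈ P` with
`α ≡ a₀` (split `f` over `L`; the roots are integral, hence in `P`).  Writing `f = (X - α) g`,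
`g(a₀) ≡ f'(a₀)` is a unit, so `α` is the only root of `f` congruent to `a₀`.  For
`σ ∈ Gal(L/E)`, `σ α` is a root of `f` congruent to `α ≡ a₀`; hence `σ α = α` and `α ∈ E`.
-/

set_option autoImplicit false

open Polynomial

namespace Fermat.Agent.A2.IF.H969

section general

variable {L : Type*} [Field L]

/-- `x ∈ 𝔪_P` iff `x ∈ P.nonunits`, for elements of `P`. -/
theorem mem_maximalIdeal_iff_coe_mem_nonunits (P : ValuationSubring L) (x : P) :
    x ∈ IsLocalRing.maximalIdeal P ↔ (x : L) ∈ P.nonunits :=
  (P.coe_mem_nonunits_iff).symm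

/-- Nonunits of a valuation subring are stable under multiplication by elements of the ring. -/
theorem mul_mem_nonunits_of_mem (P : ValuationSubring L) {a b : L} (ha : a ∈ P.nonunits)
    (hb : b ∈ P) : a * b ∈ P.nonunits := by
  rw [ValuationSubring.mem_nonunits_iff] at ha ⊢
  rw [map_mul]
  have hb' : P.valuation b ≤ 1 := (P.valuation_le_one_iff b).mpr hb
  calc P.valuation a * P.valuation b ≤ P.valuation a * 1 := by gcongr
    _ = P.valuation a := mul_one _
    _ < 1 := ha

theorem nonunits_subset (P : ValuationSubring L) {a : L} (ha : a ∈ P.nonunits) : a ∈ P := by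
  rw [ValuationSubring.mem_nonunits_iff] at ha
  exact (P.valuation_le_one_iff a).mp ha.le

/-- In an algebraically closed field, a monic polynomial over a valuation subring `P` whose value
at `a₀` is a nonunit has a root in `P` congruent to `a₀`. -/
theorem exists_isRoot_sub_mem_maximalIdeal [IsAlgClosed L] (P : ValuationSubring L) :
    ∀ (n : ℕ) (f : P[X]), f.Monic → f.natDegree = n → ∀ a₀ : P,
      f.eval a₀ ∈ IsLocalRing.maximalIdeal P →
      ∃ α : P, f.IsRoot α ∧ α - a₀ ∈ IsLocalRing.maximalIdeal P := by
  intro n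
  induction n with
  | zero =>
    intro f hf hdeg a₀ h
    exfalso
    have h1 : f = 1 := Polynomial.eq_one_of_monic_natDegree_zero hf hdeg
    rw [h1, eval_one] at h
    exact (Ideal.ne_top_iff_one _).mp (IsLocalRing.maximalIdeal.isMaximal P).ne_top h
  | succ n ih =>
    intro f hf hdeg a₀ h
    -- a root `β ∈ L` of `f`
    have hdegL : (f.map (algebraMap P L)).degree ≠ 0 := by
      intro h0
      have h1 : (f.map (algebraMap P L)).natDegree = 0 :=
        Polynomial.natDegree_eq_zero_iff_degree_le_zero.mpr h0.le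
      rw [hf.natDegree_map, hdeg] at h1
      exact Nat.succ_ne_zero n h1
    obtain ⟨β, hβ⟩ := IsAlgClosed.exists_root (f.map (algebraMap P L)) hdegL
    have hβ' : Polynomial.eval₂ (algebraMap P L) β f = 0 := by
      rw [← Polynomial.eval_map]; exact hβ
    have hint : IsIntegral P β := ⟨f, hf, hβ'⟩
    obtain ⟨b, rfl⟩ := IsIntegrallyClosed.isIntegral_iff.mp hint
    have hb : f.IsRoot b := by
      have hinj : Function.Injective (algebraMap P L) := Subtype.val_injective
      apply hinj
      rw [map_zero, ← hβ', Polynomial.eval₂_at_apply]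
    -- `f = (X - b) * g`
    have hfg : (X - C b) * (f /ₘ (X - C b)) = f := Polynomial.mul_divByMonic_eq_iff_isRoot.mpr hb
    set g := f /ₘ (X - C b) with hg
    have hgm : g.Monic := (Polynomial.monic_X_sub_C b).of_mul_monic_left (hfg.symm ▸ hf)
    have hgdeg : g.natDegree = n := by
      have h2 : f.natDegree = (X - C b).natDegree + g.natDegree := by
        conv_lhs => rw [← hfg]
        exact (Polynomial.monic_X_sub_C b).natDegree_mul hgm
      rw [hdeg, Polynomial.natDegree_X_sub_C] at h2
      omega
    have hev : f.eval a₀ = (a₀ - b) * g.eval a₀ := by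
      conv_lhs => rw [← hfg]
      simp
    rw [hev] at h
    rcases (IsLocalRing.maximalIdeal.isMaximal P).isPrime.mem_or_mem h with h1 | h1
    · refine ⟨b, hb, ?_⟩
      have := (IsLocalRing.maximalIdeal P).neg_mem h1
      simpa using this
    · obtain ⟨α, hα, hα'⟩ := ih g hgm hgdeg a₀ h1
      refine ⟨α, ?_, hα'⟩
      rw [Polynomial.IsRoot.def, ← hfg, eval_mul, hα.eq_zero, mul_zero]

end general

section hens

variable {E L : Type*} [Field E] [Field L] [Algebra E L]

/-- The inclusion `P ∩ E → P`. -/
def comapIncl (P : ValuationSubring L) : P.comap (algebraMap E L) →+* P where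
  toFun x := ⟨algebraMap E L (x : E), x.2⟩
  map_one' := Subtype.ext (map_one _)
  map_mul' _ _ := Subtype.ext (map_mul _ _ _)
  map_zero' := Subtype.ext (map_zero _)
  map_add' _ _ := Subtype.ext (map_add _ _ _)

@[simp] theorem coe_comapIncl (P : ValuationSubring L) (x : P.comap (algebraMap E L)) :
    ((comapIncl P x : P) : L) = algebraMap E L (x : E) := rfl

theorem comapIncl_injective (P : ValuationSubring L) :
    Function.Injective (comapIncl (E := E) P) := by
  intro x y h
  apply Subtype.ext
  apply (algebraMap E L).injective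
  exact congrArg Subtype.val h

/-- `x ∈ (P ∩ E).nonunits ↔ x ∈ P.nonunits`. -/
theorem mem_nonunits_comap_iff (P : ValuationSubring L) (x : E) :
    x ∈ (P.comap (algebraMap E L)).nonunits ↔ algebraMap E L x ∈ P.nonunits := by
  by_cases hx : x = 0
  · subst hx
    simp only [map_zero]
    exact ⟨fun _ => P.nonunits.zero_mem, fun _ => (P.comap (algebraMap E L)).nonunits.zero_mem⟩
  have hx' : algebraMap E L x ≠ 0 := by simpa using hx
  constructor
  · intro h
    by_contra hcon
    -- `x` is a unit of `P`, so `x⁻¹ ∈ P ∩ E`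
    have h1 : algebraMap E L x ∈ P :=
      nonunits_subset (P.comap (algebraMap E L)) h
    have h2 : P.valuation (algebraMap E L x) = 1 := by
      rw [ValuationSubring.mem_nonunits_iff, not_lt] at hcon
      exact le_antisymm ((P.valuation_le_one_iff _).mpr h1) hcon
    have h3 : x⁻¹ ∈ P.comap (algebraMap E L) := by
      rw [ValuationSubring.mem_comap, map_inv₀, ← P.valuation_le_one_iff, map_inv₀, h2, inv_one]
    have h4 : x ∈ P.comap (algebraMap E L) := h1
    rw [ValuationSubring.mem_nonunits_iff] at h
    have h5 := (ValuationSubring.valuation_le_one_iff _ _).mpr h3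
    rw [map_inv₀] at h5
    have hv0 : (P.comap (algebraMap E L)).valuation x ≠ 0 := by
      rw [Valuation.ne_zero_iff]; exact hx
    have h6 : 1 ≤ (P.comap (algebraMap E L)).valuation x :=
      (inv_le_one₀ (zero_lt_iff.mpr hv0)).mp h5
    exact absurd h (not_lt.mpr h6)
  · intro h
    have h1 : x ∈ P.comap (algebraMap E L) := nonunits_subset P h
    by_contra hcon
    rw [ValuationSubring.mem_nonunits_iff, not_lt] at hcon
    have h2 : (P.comap (algebraMap E L)).valuation x = 1 :=
      le_antisymm ((ValuationSubring.valuation_le_one_iff _ _).mpr h1) hcon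
    have h3 : x⁻¹ ∈ P.comap (algebraMap E L) := by
      rw [← ValuationSubring.valuation_le_one_iff, map_inv₀, h2, inv_one]
    have h4 : (algebraMap E L x)⁻¹ ∈ P := by
      rw [← map_inv₀]; exact h3
    rw [ValuationSubring.mem_nonunits_iff] at h
    have h5 := (P.valuation_le_one_iff _).mpr h4
    rw [map_inv₀] at h5
    have hv0 : P.valuation (algebraMap E L x) ≠ 0 := by
      rw [Valuation.ne_zero_iff]; exact hx'
    have h6 : 1 ≤ P.valuation (algebraMap E L x) :=
      (inv_le_one₀ (zero_lt_iff.mpr hv0)).mp h5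
    exact absurd h (not_lt.mpr h6)

theorem comapIncl_mem_maximalIdeal_iff (P : ValuationSubring L)
    (x : P.comap (algebraMap E L)) :
    comapIncl P x ∈ IsLocalRing.maximalIdeal P ↔
      x ∈ IsLocalRing.maximalIdeal (P.comap (algebraMap E L)) := by
  rw [mem_maximalIdeal_iff_coe_mem_nonunits, mem_maximalIdeal_iff_coe_mem_nonunits,
    coe_comapIncl, mem_nonunits_comap_iff]

/-- **Henselian.**  If `Gal(L/E)` acts trivially on `P` modulo `𝔪_P`, then `P ∩ E` is henselian. -/
theorem henselianLocalRing_comap [IsAlgClosed L] [IsGalois E L] (P : ValuationSubring L)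
    (hI : ∀ σ : L ≃ₐ[E] L, ∀ x ∈ P, σ x - x ∈ P.nonunits) :
    HenselianLocalRing (P.comap (algebraMap E L)) := by
  refine ⟨?_⟩
  intro f hf a₀ h₁ h₂
  set ι := comapIncl (E := E) P with hι
  set F : P[X] := f.map ι with hF
  have hFm : F.Monic := hf.map ι
  have hF0 : F.eval (ι a₀) ∈ IsLocalRing.maximalIdeal P := by
    rw [hF, Polynomial.eval_map, Polynomial.eval₂_at_apply]
    exact (comapIncl_mem_maximalIdeal_iff P _).mpr h₁
  obtain ⟨α, hα, hα'⟩ := exists_isRoot_sub_mem_maximalIdeal P F.natDegree F hFm rfl (ι a₀) hF0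
  -- `F = (X - α) * g`
  have hfg : (X - C α) * (F /ₘ (X - C α)) = F := Polynomial.mul_divByMonic_eq_iff_isRoot.mpr hα
  set g := F /ₘ (X - C α) with hg
  -- `g (ι a₀)` is a unit
  have hder : F.derivative.eval (ι a₀) = g.eval (ι a₀) + (ι a₀ - α) * g.derivative.eval (ι a₀) := by
    conv_lhs => rw [← hfg]
    simp [Polynomial.derivative_mul]
  have hderU : IsUnit (F.derivative.eval (ι a₀)) := by
    rw [hF, Polynomial.derivative_map, Polynomial.eval_map, Polynomial.eval₂_at_apply]
    exact h₂.map ι
  have hgU : g.eval (ι a₀) ∉ IsLocalRing.maximalIdeal P := by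
    intro hcon
    have h3 : F.derivative.eval (ι a₀) ∈ IsLocalRing.maximalIdeal P := by
      rw [hder]
      refine Ideal.add_mem _ hcon (Ideal.mul_mem_right _ _ ?_)
      have := (IsLocalRing.maximalIdeal P).neg_mem hα'
      simpa using this
    exact (IsLocalRing.mem_maximalIdeal _).mp h3 hderU
  -- `α` is Galois-fixed
  have hfix : ∀ σ : L ≃ₐ[E] L, σ (α : L) = α := by
    intro σ
    by_contra hne
    have hσα : σ (α : L) ∈ P := by
      have h3 := nonunits_subset P (hI σ (α : L) α.2)
      have : σ (α : L) = (σ (α : L) - α) + α := by ring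
      rw [this]
      exact P.add_mem _ _ h3 α.2
    set α' : P := ⟨σ (α : L), hσα⟩ with hα'def
    -- `α'` is a root of `F`
    have hroot : F.eval α' = 0 := by
      apply Subtype.val_injective
      show ((F.eval α' : P) : L) = ((0 : P) : L)
      have h4 : ∀ (p : (P.comap (algebraMap E L))[X]) (y : P),
          (((p.map ι).eval y : P) : L) =
            Polynomial.aeval (y : L) (p.map (P.comap (algebraMap E L)).subtype) := by
        intro p y
        rw [Polynomial.aeval_def, Polynomial.eval₂_map, Polynomial.eval_map]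
        have : ((Polynomial.eval₂ ι y p : P) : L) = P.subtype (Polynomial.eval₂ ι y p) := rfl
        rw [this, Polynomial.hom_eval₂]
        rfl
      rw [hF, h4 f α']
      have h5 : ((α' : P) : L) = σ (α : L) := rfl
      rw [h5, Polynomial.aeval_algEquiv, AlgHom.comp_apply]
      have h6 : Polynomial.aeval (α : L) (f.map (P.comap (algebraMap E L)).subtype) = 0 := by
        rw [← h4 f α, ← hF, hα.eq_zero]
        rfl
      rw [h6]
      simp
    have hne' : α' - α ≠ 0 := by
      intro h0
      apply hne
      have := congrArg Subtype.val (sub_eq_zero.mp h0)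
      exact this
    have hg0 : g.eval α' = 0 := by
      have h7 : (α' - α) * g.eval α' = 0 := by
        rw [← hroot]
        conv_rhs => rw [← hfg]
        simp
      rcases mul_eq_zero.mp h7 with h8 | h8
      · exact absurd h8 hne'
      · exact h8
    -- `α' ≡ ι a₀`
    have hcong : α' - ι a₀ ∈ IsLocalRing.maximalIdeal P := by
      have h9 : α' - α ∈ IsLocalRing.maximalIdeal P := by
        rw [mem_maximalIdeal_iff_coe_mem_nonunits]
        exact hI σ (α : L) α.2
      have : α' - ι a₀ = (α' - α) + (α - ι a₀) := by ring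
      rw [this]
      exact Ideal.add_mem _ h9 hα'
    have hdvd : α' - ι a₀ ∣ g.eval α' - g.eval (ι a₀) := Polynomial.sub_dvd_eval_sub _ _ _
    have h10 : g.eval α' - g.eval (ι a₀) ∈ IsLocalRing.maximalIdeal P :=
      Ideal.mem_of_dvd _ hdvd hcong
    rw [hg0, zero_sub] at h10
    apply hgU
    have := (IsLocalRing.maximalIdeal P).neg_mem h10
    simpa using this
  -- hence `α ∈ E`
  obtain ⟨e, he⟩ := (InfiniteGalois.mem_range_algebraMap_iff_fixed (k := E) (K := L) (α : L)).mpr hfix
  have heP : e ∈ P.comap (algebraMap E L) := by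
    rw [ValuationSubring.mem_comap, he]
    exact α.2
  have hια : ι ⟨e, heP⟩ = α := Subtype.ext he
  refine ⟨⟨e, heP⟩, ?_, ?_⟩
  · apply comapIncl_injective P
    rw [map_zero]
    have : ι (f.eval ⟨e, heP⟩) = F.eval (ι ⟨e, heP⟩) := by
      rw [hF, Polynomial.eval_map, Polynomial.eval₂_at_apply]
    rw [← hι, this, hια]
    exact hα
  · rw [← comapIncl_mem_maximalIdeal_iff, map_sub, ← hι, hια]
    exact hα'

end hens

end Fermat.Agent.A2.IF.H969
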