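import Fermat.Agent.A2.IF.H969.Teich

/-!
# A2 / IF (helper969): levels above the inertia field of `P ⊂ ℚ̄`

For a valuation subring `P` of `ℚ̄` over a prime `q` and an intermediate field
`E ⊇ ℚ̄^{I_P}` (`inertiaField P ≤ E`), with `R_E = P.comap (algebraMap E ℚ̄)` (`= RE P E` of the
A2 interface):

* `henselian_RE`        : `R_E` is henselian;
* `isAlgClosed_RE`      : the residue field of `R_E` is algebraically closed;
* `trivial_mod_RE`      : inertia acts trivially modulo `𝔪_P`;
* `stable_sup`          : `E = inertiaField P ⊔ M`, `M/ℚ` normal, is stable under inertia.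

These are the fields `stable`, `henselian`, `algClosed`, `trivial_mod` of `GoodField P E`
(interface `Fermat/Agent/A2/Spec.lean` of helper13); the remaining field is `dvr`.
-/

set_option autoImplicit false
set_option linter.style.haveILetI false

namespace Fermat.Agent.A2.IF.H969

/-- `ℚ̄`. -/
local notation "Qb" => AlgebraicClosure ℚ

theorem isAlgebraic_Qb : Algebra.IsAlgebraic ℚ Qb := AlgebraicClosure.isAlgebraic ℚ

theorem isGalois_Qb : IsGalois ℚ Qb := by
  haveI : Algebra.IsAlgebraic ℚ Qb := AlgebraicClosure.isAlgebraic ℚ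
  haveI : IsAlgClosure ℚ Qb := ⟨inferInstance, inferInstance⟩
  haveI : Normal ℚ Qb := IsAlgClosure.normal ℚ Qb
  exact isGalois_iff.mpr ⟨inferInstance, inferInstance⟩

/-- The inertia field `ℚ̄^{I_P}`. -/
noncomputable def inertiaField (P : ValuationSubring Qb) : IntermediateField ℚ Qb :=
  IntermediateField.fixedField (P.inertiaSubgroupIn ℚ)

theorem mem_inertiaField_iff (P : ValuationSubring Qb) (x : Qb) :
    x ∈ inertiaField P ↔ ∀ τ ∈ P.inertiaSubgroupIn ℚ, τ x = x :=
  IntermediateField.mem_fixedField_iff _ x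

/-- `R_E` is henselian for every `E ⊇ ℚ̄^{I_P}`. -/
theorem henselian_RE (P : ValuationSubring Qb) (E : IntermediateField ℚ Qb)
    (hE : inertiaField P ≤ E) : HenselianLocalRing (P.comap (algebraMap E Qb)) :=
  haveI := isGalois_Qb
  henselianLocalRing_of_fixedField_le P E hE

/-- The residue field of `R_E` is algebraically closed for every `E ⊇ ℚ̄^{I_P}`. -/
theorem isAlgClosed_RE (q : ℕ) (hq : q.Prime) (P : ValuationSubring Qb)
    (hP : P.LiesOverPrime q) (E : IntermediateField ℚ Qb) (hE : inertiaField P ≤ E) :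
    IsAlgClosed (IsLocalRing.ResidueField (P.comap (algebraMap E Qb))) :=
  haveI := isAlgebraic_Qb
  isAlgClosed_residueField_of_fixedField_le P q hq hP E hE

/-- Every element of `P` is congruent modulo `𝔪_P` to an element of the inertia field. -/
theorem exists_mem_inertiaField_sub_mem_nonunits (q : ℕ) (hq : q.Prime)
    (P : ValuationSubring Qb) (hP : P.LiesOverPrime q) (x : Qb) (hx : x ∈ P) :
    ∃ y ∈ inertiaField P, y ∈ P ∧ x - y ∈ P.nonunits := by
  haveI := isAlgebraic_Qb
  have halg : IsAlgebraic ℤ x :=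
    (IsFractionRing.isAlgebraic_iff ℤ ℚ Qb).mpr (Algebra.IsAlgebraic.isAlgebraic x)
  obtain ⟨y, hyP, hyfix, hxy⟩ :=
    exists_inertia_fixed_sub_mem_nonunits (K := ℚ) P q hq hP x hx halg
  exact ⟨y, (mem_inertiaField_iff P y).mpr hyfix, hyP, hxy⟩

/-- Inertia acts trivially modulo `𝔪_P`. -/
theorem trivial_mod_RE (P : ValuationSubring Qb) :
    ∀ τ ∈ P.inertiaSubgroupIn ℚ, ∀ e : Qb, e ∈ P → τ e - e ∈ P.nonunits :=
  fun _ hτ _ he => Fermat.Agent.A2.H708.sub_mem_nonunits_of_mem_inertiaIn P hτ he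

/-- An automorphism fixing the inertia field acts on each element like an inertia element. -/
theorem exists_inertia_apply_eq (P : ValuationSubring Qb) (σ : Qb ≃ₐ[ℚ] Qb)
    (hσ : ∀ y ∈ inertiaField P, σ y = y) (x : Qb) :
    ∃ τ ∈ P.inertiaSubgroupIn ℚ, τ x = σ x :=
  haveI := isGalois_Qb
  exists_mem_apply_eq (P.inertiaSubgroupIn ℚ) σ hσ x

/-- `ℚ̄^{I_P} ⊔ M` is stable under inertia when `M/ℚ` is normal. -/
theorem stable_sup (P : ValuationSubring Qb) (M : IntermediateField ℚ Qb) [Normal ℚ M] :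
    ∀ τ ∈ P.inertiaSubgroupIn ℚ, ∀ e : Qb, e ∈ inertiaField P ⊔ M → τ e ∈ inertiaField P ⊔ M := by
  intro τ hτ e he
  haveI : Normal ℚ Qb := isGalois_Qb.to_normal
  have hM : Normal ℚ M := inferInstance
  have h1 : (inertiaField P ⊔ M).map (τ : Qb →ₐ[ℚ] Qb) ≤ inertiaField P ⊔ M := by
    rw [IntermediateField.map_sup]
    refine sup_le ?_ ?_
    · refine le_trans ?_ le_sup_left
      rintro _ ⟨y, hy, rfl⟩
      have : τ y = y := (mem_inertiaField_iff P y).mp hy τ hτ
      show τ y ∈ inertiaField P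
      rw [this]
      exact hy
    · refine le_trans ?_ le_sup_right
      exact (IntermediateField.normal_iff_forall_map_le (F := ℚ) (L := Qb) (K := M)).mp hM _
  exact h1 ⟨e, he, rfl⟩

end Fermat.Agent.A2.IF.H969
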