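import Fermat.Agent.A2.IF.H969.Hens
import Fermat.Agent.A2.H708.Tame
import Fermat.Prelude.Def_FLTPrelim_Ramification

/-!
# A2 / IF (helper969): the residue field of `P ∩ E` for `E ⊇ ℚ̄^{I_P}`

* `eq_of_isRoot_of_sub_mem` : a simple root modulo `𝔪` is the unique root in its residue class.
* `exists_pow_sub_one_mem_nonunits` : every unit of `P` (valuation subring of `ℚ̄` over `q`)
  satisfies `x ^ (q ^ d - 1) ≡ 1` for some `d ≥ 1`  (the residue field is algebraic over `𝔽_q`).
* `exists_inertia_fixed_sub_mem_nonunits` : Teichmüller lift: every `x ∈ P` is congruent modulo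
  `𝔪_P` to an element fixed by the inertia group (`0` or a root of unity of order prime to `q`).
* `isAlgClosed_residueField_comap` : if every `x ∈ P` is congruent to an element of `E`, the
  residue field of `P ∩ E` is algebraically closed (`L` algebraically closed).
* `exists_mem_apply_eq` (LemA): `σ` fixing the fixed field of a subgroup `H` agrees on every
  element with some `τ ∈ H`.
-/

set_option autoImplicit false

open Polynomial
open scoped Pointwise

namespace Fermat.Agent.A2.IF.H969

/-- A root of `F` which is simple modulo the maximal ideal is the only root in its class. -/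
theorem eq_of_isRoot_of_sub_mem {R : Type*} [CommRing R] [IsDomain R] [IsLocalRing R] (F : R[X])
    {α α' : R} (hα : F.IsRoot α) (hα' : F.IsRoot α')
    (hcong : α' - α ∈ IsLocalRing.maximalIdeal R) (hder : IsUnit (F.derivative.eval α)) :
    α' = α := by
  by_contra hne
  have hfg : (X - C α) * (F /ₘ (X - C α)) = F := Polynomial.mul_divByMonic_eq_iff_isRoot.mpr hα
  set g := F /ₘ (X - C α) with hg
  have hder' : F.derivative.eval α = g.eval α := by
    conv_lhs => rw [← hfg]
    simp [Polynomial.derivative_mul]
  have hg0 : g.eval α' = 0 := by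
    have h7 : (α' - α) * g.eval α' = 0 := by
      rw [← hα'.eq_zero]
      conv_rhs => rw [← hfg]
      simp
    rcases mul_eq_zero.mp h7 with h8 | h8
    · exact absurd (sub_eq_zero.mp h8) hne
    · exact h8
  have hdvd : α' - α ∣ g.eval α' - g.eval α := Polynomial.sub_dvd_eval_sub _ _ _
  have h10 : g.eval α' - g.eval α ∈ IsLocalRing.maximalIdeal R := Ideal.mem_of_dvd _ hdvd hcong
  rw [hg0, zero_sub] at h10
  have h11 : g.eval α ∈ IsLocalRing.maximalIdeal R := by
    have := (IsLocalRing.maximalIdeal R).neg_mem h10
    simpa using this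
  rw [← hder'] at h11
  exact (IsLocalRing.mem_maximalIdeal _).mp h11 hder

section residue

variable {L : Type*} [Field L] {E : Type*} [Field E] [Algebra E L]

/-- If every element of `P` is congruent modulo `𝔪_P` to an element of `E`, the residue field
of `P ∩ E` is algebraically closed. -/
theorem isAlgClosed_residueField_comap [IsAlgClosed L] (P : ValuationSubring L)
    (hsurj : ∀ x ∈ P, ∃ e : E, x - algebraMap E L e ∈ P.nonunits) :
    IsAlgClosed (IsLocalRing.ResidueField (P.comap (algebraMap E L))) := by
  refine IsAlgClosed.of_exists_root _ ?_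
  intro p hpm hpirr
  have hres : Function.Surjective (IsLocalRing.residue (P.comap (algebraMap E L))) :=
    IsLocalRing.residue_surjective
  obtain ⟨f, hfmap, hfdeg, hfm⟩ :=
    Polynomial.lifts_and_natDegree_eq_and_monic
      ((Polynomial.mem_lifts p).mpr (Polynomial.map_surjective _ hres p)) hpm
  have hpdeg : p.natDegree ≠ 0 := fun h =>
    hpirr.not_isUnit (by
      rw [Polynomial.Monic.isUnit_iff hpm]
      exact Polynomial.eq_one_of_monic_natDegree_zero hpm h)
  set ι := comapIncl (E := E) P with hι
  set F : P[X] := f.map ι with hF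
  have hFm : F.Monic := hfm.map ι
  -- a root `β ∈ P` of `F`
  have hdegL : (F.map (algebraMap P L)).degree ≠ 0 := by
    intro h0
    have h1 : (F.map (algebraMap P L)).natDegree = 0 :=
      Polynomial.natDegree_eq_zero_iff_degree_le_zero.mpr h0.le
    rw [hFm.natDegree_map, hF, hfm.natDegree_map, hfdeg] at h1
    exact hpdeg h1
  obtain ⟨β, hβ⟩ := IsAlgClosed.exists_root (F.map (algebraMap P L)) hdegL
  have hβ' : Polynomial.eval₂ (algebraMap P L) β F = 0 := by
    rw [← Polynomial.eval_map]; exact hβ
  have hint : IsIntegral P β := ⟨F, hFm, hβ'⟩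
  obtain ⟨b, rfl⟩ := IsIntegrallyClosed.isIntegral_iff.mp hint
  have hb : F.eval b = 0 := by
    have hinj : Function.Injective (algebraMap P L) := Subtype.val_injective
    apply hinj
    rw [map_zero, ← hβ', Polynomial.eval₂_at_apply]
  obtain ⟨e, he⟩ := hsurj (b : L) b.2
  have heP : e ∈ P.comap (algebraMap E L) := by
    rw [ValuationSubring.mem_comap]
    have h1 := nonunits_subset P he
    have : algebraMap E L e = (b : L) - ((b : L) - algebraMap E L e) := by ring
    rw [this]
    exact P.sub_mem b.2 h1
  set e' : P.comap (algebraMap E L) := ⟨e, heP⟩ with he'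
  have hcong : b - ι e' ∈ IsLocalRing.maximalIdeal P := by
    rw [mem_maximalIdeal_iff_coe_mem_nonunits]
    exact he
  refine ⟨IsLocalRing.residue _ e', ?_⟩
  rw [← hfmap, Polynomial.eval_map, Polynomial.eval₂_at_apply, IsLocalRing.residue_eq_zero_iff,
    ← comapIncl_mem_maximalIdeal_iff]
  have h2 : ι (f.eval e') = F.eval (ι e') := by
    rw [hF, Polynomial.eval_map, Polynomial.eval₂_at_apply]
  rw [← hι, h2]
  have hdvd : b - ι e' ∣ F.eval b - F.eval (ι e') := Polynomial.sub_dvd_eval_sub _ _ _
  have h3 := Ideal.mem_of_dvd _ hdvd hcong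
  rw [hb, zero_sub] at h3
  have := (IsLocalRing.maximalIdeal P).neg_mem h3
  simpa using this

end residue

section LemA

variable {K L : Type*} [Field K] [Field L] [Algebra K L]

/-- **LemA.**  If `σ` fixes the fixed field of a subgroup `H ≤ Gal(L/K)` pointwise, then `σ`
agrees on every element of `L` with some element of `H` (`σ` lies in the closure of `H`). -/
theorem exists_mem_apply_eq [IsGalois K L] (H : Subgroup (L ≃ₐ[K] L)) (σ : L ≃ₐ[K] L)
    (hσ : ∀ y ∈ IntermediateField.fixedField H, σ y = y) (x : L) : ∃ τ ∈ H, τ x = σ x := by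
  let Hc : ClosedSubgroup (L ≃ₐ[K] L) :=
    ⟨H.topologicalClosure, Subgroup.isClosed_topologicalClosure H⟩
  have h1 : σ ∈ (IntermediateField.fixedField Hc.1).fixingSubgroup := by
    rw [IntermediateField.mem_fixingSubgroup_iff]
    intro y hy
    apply hσ y
    rw [IntermediateField.mem_fixedField_iff] at hy ⊢
    intro τ hτ
    exact hy τ (Subgroup.le_topologicalClosure H hτ)
  rw [InfiniteGalois.fixingSubgroup_fixedField Hc] at h1
  have h2 : σ ∈ closure (H : Set (L ≃ₐ[K] L)) := h1
  rw [mem_closure_iff_nhds] at h2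
  have hfin : FiniteDimensional K (IntermediateField.adjoin K ({x} : Set L)) :=
    IntermediateField.adjoin.finiteDimensional (Algebra.IsIntegral.isIntegral x)
  have hopen : IsOpen (σ • ((IntermediateField.adjoin K ({x} : Set L)).fixingSubgroup :
      Set (L ≃ₐ[K] L))) :=
    (IntermediateField.fixingSubgroup_isOpen _).smul σ
  have hmem : σ ∈ σ • ((IntermediateField.adjoin K ({x} : Set L)).fixingSubgroup :
      Set (L ≃ₐ[K] L)) := ⟨1, one_mem _, by simp⟩
  obtain ⟨τ, ⟨h, hh, rfl⟩, hτH⟩ := h2 _ (hopen.mem_nhds hmem)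
  refine ⟨_, hτH, ?_⟩
  have hx : h x = x :=
    (IntermediateField.mem_fixingSubgroup_iff _ h).mp hh x
      (IntermediateField.subset_adjoin K _ (Set.mem_singleton _))
  show (σ * h) x = σ x
  rw [AlgEquiv.mul_apply, hx]

end LemA

end Fermat.Agent.A2.IF.H969
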