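import Fermat.Agent.A2.IF.H969.Res

/-!
# A2 / IF (helper969): Teichmüller lifts are fixed by inertia

`P` a valuation subring of a field `L` with `q ∈ 𝔪_P`, `q` prime.

* `exists_pow_sub_one_mem_nonunits` : a unit `x` of `P`, algebraic over `ℤ`, satisfies
  `x ^ (q ^ d - 1) ≡ 1 mod 𝔪_P` for some `d ≥ 1`.
* `exists_inertia_fixed_sub_mem_nonunits` : (`L` algebraically closed) every `x ∈ P` algebraic
  over `ℤ` is congruent modulo `𝔪_P` to an element of `P` fixed by the inertia group.
-/

set_option autoImplicit false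
set_option linter.style.haveILetI false

open Polynomial

namespace Fermat.Agent.A2.IF.H969

section teich

variable {L : Type*} [Field L]

theorem natCast_residue_eq_zero_of_mem (P : ValuationSubring L) {q : ℕ}
    (hP : (q : L) ∈ P.nonunits) : ((q : ℕ) : IsLocalRing.ResidueField P) = 0 := by
  have h : ((q : P) : L) ∈ P.nonunits := by simpa using hP
  have h' : (q : P) ∈ IsLocalRing.maximalIdeal P := (P.coe_mem_nonunits_iff).mp h
  have := (IsLocalRing.residue_eq_zero_iff (q : P)).mpr h'
  simpa using this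

/-- A primitive integer polynomial vanishing at an algebraic element. -/
theorem exists_isPrimitive_aeval_eq_zero [CharZero L] {x : L} (halg : IsAlgebraic ℤ x) :
    ∃ g : ℤ[X], g.IsPrimitive ∧ Polynomial.aeval x g = 0 := by
  obtain ⟨p, hp0, hpx⟩ := halg
  refine ⟨p.primPart, p.isPrimitive_primPart, ?_⟩
  have h1 := p.eq_C_content_mul_primPart
  rw [h1, map_mul, Polynomial.aeval_C] at hpx
  have hc : algebraMap ℤ L p.content ≠ 0 := by
    rw [Ne, map_eq_zero_iff _ (algebraMap ℤ L).injective_int]
    exact fun h => hp0 (Polynomial.content_eq_zero_iff.mp h)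
  exact (mul_eq_zero.mp hpx).resolve_left hc

theorem map_ne_zero_of_isPrimitive {q : ℕ} (hq : q.Prime) {g : ℤ[X]} (hg : g.IsPrimitive) :
    g.map (Int.castRingHom (ZMod q)) ≠ 0 := by
  intro h0
  have h1 : Polynomial.C (q : ℤ) ∣ g := by
    rw [Polynomial.C_dvd_iff_dvd_coeff]
    intro i
    have h2 := congrArg (fun f => f.coeff i) h0
    simp only [Polynomial.coeff_map, Polynomial.coeff_zero, eq_intCast] at h2
    exact (ZMod.intCast_zmod_eq_zero_iff_dvd _ _).mp h2
  have h3 := hg _ h1
  rw [Int.isUnit_iff] at h3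
  have h4 := hq.one_lt
  omega

/-- The residue class of a `ℤ`-algebraic element of `P` is algebraic over `𝔽_q`. -/
theorem exists_pow_sub_one_mem_nonunits [CharZero L] (P : ValuationSubring L) (q : ℕ)
    (hq : q.Prime) (hP : (q : L) ∈ P.nonunits) (x : L) (hx : x ∈ P) (hxu : x ∉ P.nonunits)
    (halg : IsAlgebraic ℤ x) :
    ∃ d : ℕ, 0 < d ∧ x ^ (q ^ d - 1) - 1 ∈ P.nonunits := by
  haveI : Fact q.Prime := ⟨hq⟩
  set k := IsLocalRing.ResidueField P with hk
  have hq0 : ((q : ℕ) : k) = 0 := natCast_residue_eq_zero_of_mem P hP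
  haveI : CharP k q := (CharP.charP_iff_prime_eq_zero hq).2 hq0
  letI : Algebra (ZMod q) k := ZMod.algebra k q
  set x' : P := ⟨x, hx⟩ with hx'
  set xb : k := IsLocalRing.residue P x' with hxb
  obtain ⟨g, hg, hgx⟩ := exists_isPrimitive_aeval_eq_zero halg
  have hgq := map_ne_zero_of_isPrimitive hq hg
  -- `xb` is a root of `g mod q`
  have hroot : Polynomial.aeval xb (g.map (Int.castRingHom (ZMod q))) = 0 := by
    rw [Polynomial.aeval_def, Polynomial.eval₂_map]
    have h1 : (algebraMap (ZMod q) k).comp (Int.castRingHom (ZMod q)) =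
        (IsLocalRing.residue P).comp (Int.castRingHom P) := RingHom.ext_int _ _
    rw [h1, hxb, ← Polynomial.hom_eval₂]
    have h2 : Polynomial.eval₂ (Int.castRingHom P) x' g = 0 := by
      apply Subtype.val_injective
      have h3 : ((Polynomial.eval₂ (Int.castRingHom P) x' g : P) : L) =
          P.subtype (Polynomial.eval₂ (Int.castRingHom P) x' g) := rfl
      rw [h3, Polynomial.hom_eval₂]
      have h4 : (P.subtype).comp (Int.castRingHom P) = algebraMap ℤ L := RingHom.ext_int _ _
      rw [h4]
      exact hgx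
    rw [h2, map_zero]
  have hint : IsIntegral (ZMod q) xb :=
    (isAlgebraic_iff_isIntegral).mp ⟨_, hgq, hroot⟩
  -- the finite field `𝔽_q(xb)`
  set K₀ := IntermediateField.adjoin (ZMod q) ({xb} : Set k) with hK₀
  haveI : FiniteDimensional (ZMod q) K₀ := IntermediateField.adjoin.finiteDimensional hint
  haveI : Finite K₀ := Module.finite_of_finite (ZMod q)
  letI : Fintype K₀ := Fintype.ofFinite K₀
  haveI : CharP K₀ q := charP_of_injective_algebraMap (algebraMap (ZMod q) K₀).injective q
  obtain ⟨n, -, hn⟩ := FiniteField.card K₀ q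
  set z : K₀ := ⟨xb, IntermediateField.mem_adjoin_simple_self _ _⟩ with hz
  have hxb0 : xb ≠ 0 := by
    rw [hxb, Ne, IsLocalRing.residue_eq_zero_iff, mem_maximalIdeal_iff_coe_mem_nonunits]
    exact hxu
  have hz0 : z ≠ 0 := fun h => hxb0 (congrArg Subtype.val h)
  have h5 := FiniteField.pow_card_sub_one_eq_one z hz0
  rw [hn] at h5
  have h6 : xb ^ (q ^ (n : ℕ) - 1) = 1 := by
    have := congrArg Subtype.val h5
    simpa using this
  refine ⟨n, n.pos, ?_⟩
  have h7 : IsLocalRing.residue P (x' ^ (q ^ (n : ℕ) - 1) - 1) = 0 := by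
    rw [map_sub, map_pow, map_one, ← hxb, h6, sub_self]
  rw [IsLocalRing.residue_eq_zero_iff, mem_maximalIdeal_iff_coe_mem_nonunits] at h7
  exact h7

/-- **Teichmüller lift.**  Every `ℤ`-algebraic `x ∈ P` is congruent modulo `𝔪_P` to an element
of `P` fixed by the inertia group of `P` (namely `0` or a root of unity of order `q ^ d - 1`). -/
theorem exists_inertia_fixed_sub_mem_nonunits {K : Type*} [Field K] [Algebra K L] [CharZero L]
    [IsAlgClosed L] (P : ValuationSubring L) (q : ℕ) (hq : q.Prime) (hP : (q : L) ∈ P.nonunits)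
    (x : L) (hx : x ∈ P) (halg : IsAlgebraic ℤ x) :
    ∃ y : L, y ∈ P ∧ (∀ τ ∈ P.inertiaSubgroupIn K, τ y = y) ∧ x - y ∈ P.nonunits := by
  by_cases hxu : x ∈ P.nonunits
  · exact ⟨0, P.zero_mem, fun τ _ => map_zero τ, by simpa using hxu⟩
  obtain ⟨d, hd, hpow⟩ := exists_pow_sub_one_mem_nonunits P q hq hP x hx hxu halg
  set n := q ^ d - 1 with hn
  have hqd : 2 ≤ q ^ d := by
    calc 2 ≤ q := hq.two_le
      _ = q ^ 1 := (pow_one q).symm
      _ ≤ q ^ d := Nat.pow_le_pow_right hq.pos hd
  have hn0 : n ≠ 0 := by omega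
  have hn1 : n + 1 = q ^ d := by omega
  set x' : P := ⟨x, hx⟩ with hx'
  set F : P[X] := X ^ n - C 1 with hF
  have hFm : F.Monic := Polynomial.monic_X_pow_sub_C (1 : P) hn0
  have hF0 : F.eval x' ∈ IsLocalRing.maximalIdeal P := by
    rw [mem_maximalIdeal_iff_coe_mem_nonunits, hF]
    simpa using hpow
  obtain ⟨α, hα, hα'⟩ := exists_isRoot_sub_mem_maximalIdeal P F.natDegree F hFm rfl x' hF0
  have hαn : α ^ n = 1 := by
    have := hα.eq_zero
    rw [hF] at this
    simp only [eval_sub, eval_pow, eval_X, eval_C] at this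
    exact sub_eq_zero.mp this
  -- `n` is a unit of `P`
  have hqm : (q : P) ∈ IsLocalRing.maximalIdeal P := by
    rw [mem_maximalIdeal_iff_coe_mem_nonunits]
    simpa using hP
  have hnU : IsUnit (n : P) := by
    by_contra hcon
    have h1 : (n : P) ∈ IsLocalRing.maximalIdeal P := (IsLocalRing.mem_maximalIdeal _).mpr hcon
    have h2 : ((q : P)) ^ d ∈ IsLocalRing.maximalIdeal P :=
      Ideal.pow_mem_of_mem _ hqm d hd
    have h3 : (1 : P) = (q : P) ^ d - (n : P) := by
      have : ((n + 1 : ℕ) : P) = ((q ^ d : ℕ) : P) := by rw [hn1]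
      push_cast at this
      rw [← this]; ring
    have h4 : (1 : P) ∈ IsLocalRing.maximalIdeal P := by
      rw [h3]; exact Ideal.sub_mem _ h2 h1
    exact (Ideal.ne_top_iff_one _).mp (IsLocalRing.maximalIdeal.isMaximal P).ne_top h4
  have hαU : IsUnit α := IsUnit.of_pow_eq_one hαn hn0
  have hder : IsUnit (F.derivative.eval α) := by
    have : F.derivative.eval α = (n : P) * α ^ (n - 1) := by
      rw [hF, Polynomial.derivative_sub, Polynomial.derivative_C, sub_zero,
        Polynomial.derivative_X_pow, Polynomial.eval_mul, Polynomial.eval_pow, Polynomial.eval_X,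
        Polynomial.eval_C]
    rw [this]
    exact hnU.mul (hαU.pow _)
  refine ⟨α, α.2, fun τ hτ => ?_, ?_⟩
  · have hτα : τ (α : L) ∈ P :=
      Fermat.Agent.A2.H708.apply_mem_of_mem_decomposition P
        (Fermat.Agent.A2.H708.mem_decomposition_of_mem_inertiaIn P hτ) α.2
    set α₁ : P := ⟨τ (α : L), hτα⟩ with hα₁
    have hroot : F.IsRoot α₁ := by
      rw [Polynomial.IsRoot.def, hF]
      simp only [eval_sub, eval_pow, eval_X, eval_C]
      rw [sub_eq_zero]
      apply Subtype.val_injective
      show (τ (α : L)) ^ n = 1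
      rw [← map_pow]
      have : ((α : L)) ^ n = 1 := by
        have := congrArg Subtype.val hαn
        simpa using this
      rw [this, map_one]
    have hcong : α₁ - α ∈ IsLocalRing.maximalIdeal P := by
      rw [mem_maximalIdeal_iff_coe_mem_nonunits]
      exact Fermat.Agent.A2.H708.sub_mem_nonunits_of_mem_inertiaIn P hτ α.2
    have := eq_of_isRoot_of_sub_mem F hα hroot hcong hder
    exact congrArg Subtype.val this
  · have h1 : x' - α ∈ IsLocalRing.maximalIdeal P := by
      have := (IsLocalRing.maximalIdeal P).neg_mem hα'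
      simpa using this
    rw [mem_maximalIdeal_iff_coe_mem_nonunits] at h1
    exact h1

end teich

section assembly

variable {K L : Type*} [Field K] [Field L] [Algebra K L]

/-- **Henselian at levels above the inertia field.** -/
theorem henselianLocalRing_of_fixedField_le [IsAlgClosed L] [IsGalois K L]
    (P : ValuationSubring L) (E : IntermediateField K L)
    (hE : IntermediateField.fixedField (P.inertiaSubgroupIn K) ≤ E) :
    HenselianLocalRing (P.comap (algebraMap E L)) := by
  haveI : IsGalois E L := IsGalois.tower_top_of_isGalois K E L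
  refine henselianLocalRing_comap P ?_
  intro σ x hx
  obtain ⟨τ, hτ, hτx⟩ := exists_mem_apply_eq (P.inertiaSubgroupIn K) (σ.restrictScalars K)
    (fun y hy => σ.commutes ⟨y, hE hy⟩) x
  have h1 : σ x = τ x := hτx.symm
  rw [h1]
  exact Fermat.Agent.A2.H708.sub_mem_nonunits_of_mem_inertiaIn P hτ hx

/-- **Residue field at levels above the inertia field.** -/
theorem isAlgClosed_residueField_of_fixedField_le [IsAlgClosed L] [CharZero L]
    [Algebra.IsAlgebraic ℚ L] (P : ValuationSubring L) (q : ℕ) (hq : q.Prime)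
    (hP : P.LiesOverPrime q) (E : IntermediateField K L)
    (hE : IntermediateField.fixedField (P.inertiaSubgroupIn K) ≤ E) :
    IsAlgClosed (IsLocalRing.ResidueField (P.comap (algebraMap E L))) := by
  refine isAlgClosed_residueField_comap P ?_
  intro x hx
  have halg : IsAlgebraic ℤ x :=
    (IsFractionRing.isAlgebraic_iff ℤ ℚ L).mpr (Algebra.IsAlgebraic.isAlgebraic x)
  obtain ⟨y, -, hyfix, hxy⟩ := exists_inertia_fixed_sub_mem_nonunits (K := K) P q hq hP x hx halg
  have hyE : y ∈ E := hE ((IntermediateField.mem_fixedField_iff _ y).mpr hyfix)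
  exact ⟨⟨y, hyE⟩, hxy⟩

end assembly

end Fermat.Agent.A2.IF.H969
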